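import Fermat.Agent.S17.HT0.Defs

/-! # S17/HT0 blueprint.  Statements only (never import this file from a proof file). -/

set_option autoImplicit false

noncomputable section

open scoped Classical

namespace Fermat.Agent.S17.HT0.WIP

open Fermat.Agent.S17.H Fermat.Agent.S17.HT0

/-! ## AVG: averages over finite orbits -/

/-- push-forward of the uniform measure of a finite orbit under an equivariant map. -/
theorem avgOrb_comp {G X Y : Type*} [Group G] [MulAction G X] [MulAction G Y] (π : X → Y)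
    (hπ : ∀ (g : G) (x : X), π (g • x) = g • π x) (F : Y → ℝ) (x : X)
    (hx : (MulAction.orbit G x).Finite) : avgOrb G (F ∘ π) x = avgOrb G F (π x) := sorry

theorem avgOrb_add {G X : Type*} [Group G] [MulAction G X] (F F' : X → ℝ) (x : X)
    (hx : (MulAction.orbit G x).Finite) :
    avgOrb G (fun y => F y + F' y) x = avgOrb G F x + avgOrb G F' x := sorry

theorem avgOrb_mono {G X : Type*} [Group G] [MulAction G X] (F F' : X → ℝ) (x : X)
    (hx : (MulAction.orbit G x).Finite) (h : ∀ y ∈ MulAction.orbit G x, F y ≤ F' y) :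
    avgOrb G F x ≤ avgOrb G F' x := sorry

theorem avgOrb_const {G X : Type*} [Group G] [MulAction G X] (c : ℝ) (x : X)
    (hx : (MulAction.orbit G x).Finite) : avgOrb G (fun _ => c) x = c := sorry

/-! ## ORB: finiteness of Galois orbits -/

theorem finite_orbit_elt (a : Qb) : (MulAction.orbit GQ a).Finite := sorry

theorem finite_orbit_vec {ι : Type*} [Finite ι] (x : ι → Qb) : (MulAction.orbit GQ x).Finite := sorry

theorem finite_orbit_prod {X Y : Type*} [MulAction GQ X] [MulAction GQ Y] (x : X) (y : Y)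
    (hx : (MulAction.orbit GQ x).Finite) (hy : (MulAction.orbit GQ y).Finite) :
    (MulAction.orbit GQ (x, y)).Finite := sorry

/-! ## The five properties -/

variable (𝔳 : AbsFam)

/-- the average over the conjugates of `c` of `∑_v log |c'|_v` vanishes. -/
theorem avgOrb_sum_log_av {c : Qb} (hc : c ≠ 0) :
    avgOrb GQ (fun c' : Qb => ∑ᶠ v, Real.log (𝔳.av v c')) c = 0 := sorry

theorem habs_smul {ι : Type*} [Finite ι] {c : Qb} (hc : c ≠ 0) (x : ι → Qb) :
    habs 𝔳 (c • x) = habs 𝔳 x := sorry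

theorem habs_nonneg {ι : Type*} [Finite ι] (x : ι → Qb) : 0 ≤ habs 𝔳 x := sorry

theorem habs_tmul {ι κ : Type*} [Finite ι] [Finite κ] {x : ι → Qb} {y : κ → Qb} (hx : x ≠ 0)
    (hy : y ≠ 0) : habs 𝔳 (fun p : ι × κ => x p.1 * y p.2) = habs 𝔳 x + habs 𝔳 y := sorry

theorem habs_pow {ι : Type*} [Finite ι] (x : ι → Qb) (M : ℕ) :
    habs 𝔳 (fun i => x i ^ M) = M * habs 𝔳 x := sorry

theorem habs_mulVec_le {ι κ : Type*} [Fintype ι] [Finite κ] (A : Matrix κ ι Qb) :
    ∃ C : ℝ, ∀ x : ι → Qb, A.mulVec x ≠ 0 → habs 𝔳 (A.mulVec x) ≤ habs 𝔳 x + C := sorry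

/-- invariance under reindexing and under adding zero coordinates. -/
theorem habs_comp_equiv {ι κ : Type*} [Finite ι] [Finite κ] (e : κ ≃ ι) (x : ι → Qb) :
    habs 𝔳 (x ∘ e) = habs 𝔳 x := sorry

theorem habs_extend_zero {ι κ : Type*} [Finite ι] [Finite κ] (f : ι → κ)
    (hf : Function.Injective f) (x : ι → Qb) :
    habs 𝔳 (Function.extend f x 0) = habs 𝔳 x := sorry

/-- Galois invariance. -/
theorem habs_galois {ι : Type*} [Finite ι] (σ : GQ) (x : ι → Qb) :
    habs 𝔳 (fun i => σ (x i)) = habs 𝔳 x := sorry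

/-- rational vectors. -/
theorem habs_ratVec {ι : Type*} [Finite ι] (x : ι → ℚ) : habs 𝔳 (ratVec x) = ht 𝔳 (ratVec x) := sorry

/-- Northcott over `ℚ`, projective form: rational vectors with a coordinate equal to `1`. -/
theorem finite_ratVec_habs_le {ι : Type*} [Finite ι] (B : ℝ) :
    {x : ι → ℚ | (∃ i, x i = 1) ∧ habs 𝔳 (ratVec x) ≤ B}.Finite := sorry

end Fermat.Agent.S17.HT0.WIP
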